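/-
S28 package RED, part (I4) (helper85): the elements of the chart algebras of the Igusa scheme have
`ℓ`-integral `q`-expansions.

Main results (namespace `Fermat.Agent.S28.H85`):
* `intSubring ℓ` : the subring of `LaurentSeries ℚ` of series with coefficients in `ℤ_(ℓ)`;
* `mem_intSubring_of_forall_mul_pow_mem` : if `d ≠ 0` and all `d * x ^ m` are `ℓ`-integral then so is `x`;
* `mem_intSubring_of_isIntegral` : a quotient of `ℓ`-integral series that is integral over them is
  `ℓ`-integral;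
* `coe_mem_intSubring_of_mem_chartAlg`, `coeff_mem_of_mem_chartAlg` : the chart algebras.
-/
import Mathlib
import Fermat.Prelude.Def_ModularCurve_IgusaScheme
import Fermat.Prelude.Def_ModularCurve_X0ModL
set_option autoImplicit false

noncomputable section

open HahnSeries ModularCurve

namespace Fermat.Agent.S28.H85

variable (ℓ : ℕ)

/-- Laurent series over `ℚ` all of whose coefficients are `ℓ`-integral. -/
def intSubring : Subring (LaurentSeries ℚ) :=
  (coeffMap (GaloisRep.ratLocalizedAt ℓ).subtype).range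

variable {ℓ}

theorem mem_intSubring_iff {x : LaurentSeries ℚ} :
    x ∈ intSubring ℓ ↔ ∀ k : ℤ, x.coeff k ∈ GaloisRep.ratLocalizedAt ℓ := by
  constructor
  · rintro ⟨y, rfl⟩ k
    rw [coeffMap_coeff]
    exact (y.coeff k).2
  · intro h
    refine ⟨⟨fun k => ⟨x.coeff k, h k⟩, x.isPWO_support.mono ?_⟩, ?_⟩
    · intro k hk
      simp only [Function.mem_support, ne_eq] at hk
      rw [HahnSeries.mem_support]
      intro h0
      exact hk (Subtype.ext h0)
    · ext k
      rfl

theorem single_mem_intSubring {k : ℤ} {c : ℚ} (hc : c ∈ GaloisRep.ratLocalizedAt ℓ) :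
    (HahnSeries.single k c : LaurentSeries ℚ) ∈ intSubring ℓ := by
  rw [mem_intSubring_iff]
  intro m
  rcases eq_or_ne m k with rfl | hm
  · rw [HahnSeries.coeff_single_same]; exact hc
  · rw [HahnSeries.coeff_single_of_ne hm]; exact zero_mem _

/-- Series with integer coefficients are `ℓ`-integral. -/
theorem coeffMap_intCast_mem_intSubring (y : LaurentSeries ℤ) :
    coeffMap (Int.castRingHom ℚ) y ∈ intSubring ℓ := by
  rw [mem_intSubring_iff]
  intro k
  rw [coeffMap_coeff]
  exact intCast_mem _ _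


variable [Fact ℓ.Prime]


theorem mem_ratLocalizedAt_iff_not_dvd {q : ℚ} :
    q ∈ GaloisRep.ratLocalizedAt ℓ ↔ ¬ ℓ ∣ q.den := by
  have hℓ : ℓ.Prime := Fact.out
  show q.den.Coprime ℓ ↔ _
  rw [Nat.coprime_comm, hℓ.coprime_iff_not_dvd]

theorem mem_ratLocalizedAt_iff_padicValRat {q : ℚ} :
    q ∈ GaloisRep.ratLocalizedAt ℓ ↔ q = 0 ∨ 0 ≤ padicValRat ℓ q := by
  have hℓ : ℓ.Prime := Fact.out
  rw [mem_ratLocalizedAt_iff_not_dvd]
  constructor
  · intro h
    right
    rw [padicValRat, padicValNat.eq_zero_of_not_dvd h]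
    simp
  · rintro (rfl | h)
    · simp [hℓ.one_lt.ne']
    · intro hdvd
      have h1 : 1 ≤ padicValNat ℓ q.den := one_le_padicValNat_of_dvd q.den_pos.ne' hdvd
      have h2 : ¬ (ℓ : ℤ) ∣ q.num := by
        intro hnum
        have hc := q.reduced
        have h3 : ℓ ∣ q.num.natAbs := Int.natCast_dvd.mp hnum
        have := Nat.dvd_gcd h3 hdvd
        rw [hc] at this
        exact hℓ.one_lt.ne' (Nat.dvd_one.mp this)
      have h4 : padicValInt ℓ q.num = 0 := padicValInt.eq_zero_of_not_dvd h2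
      rw [padicValRat, h4] at h
      omega

theorem not_forall_mul_pow_mem {a b : ℚ} (ha : a ≠ 0) (hb : b ∉ GaloisRep.ratLocalizedAt ℓ) :
    ¬ ∀ m : ℕ, a * b ^ m ∈ GaloisRep.ratLocalizedAt ℓ := by
  intro h
  have hb0 : b ≠ 0 := by rintro rfl; exact hb (zero_mem _)
  have hv : padicValRat ℓ b < 0 := by
    by_contra hv
    exact hb (mem_ratLocalizedAt_iff_padicValRat.mpr (Or.inr (not_lt.mp hv)))
  obtain ⟨m, hm⟩ : ∃ m : ℕ, padicValRat ℓ a < (m : ℤ) :=
    ⟨(padicValRat ℓ a).toNat + 1, by have := Int.self_le_toNat (padicValRat ℓ a); push_cast; omega⟩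
  have key := h m
  rw [mem_ratLocalizedAt_iff_padicValRat] at key
  rcases key with key | key
  · exact mul_ne_zero ha (pow_ne_zero _ hb0) key
  · rw [padicValRat.mul ha (pow_ne_zero _ hb0), padicValRat.pow b] at key
    have h1 : (m : ℤ) * padicValRat ℓ b ≤ -(m : ℤ) := by
      nlinarith [Int.natCast_nonneg m]
    linarith


theorem leadingCoeff_pow' (x : LaurentSeries ℚ) (m : ℕ) :
    (x ^ m).leadingCoeff = x.leadingCoeff ^ m := by
  induction m with
  | zero => simp
  | succ m ih => rw [pow_succ, HahnSeries.leadingCoeff_mul, ih, pow_succ]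

/-- **Key lemma.** If `d ≠ 0` and all `d * x ^ m` are `ℓ`-integral, then `x` is `ℓ`-integral. -/
theorem mem_intSubring_of_forall_mul_pow_mem {x d : LaurentSeries ℚ} (hd : d ≠ 0)
    (h : ∀ m : ℕ, d * x ^ m ∈ intSubring ℓ) : x ∈ intSubring ℓ := by
  by_contra hx
  rw [mem_intSubring_iff] at hx
  push Not at hx
  let B : Set ℤ := {k | x.coeff k ∉ GaloisRep.ratLocalizedAt ℓ}
  have hBsub : B ⊆ x.support := fun k hk => by
    rw [HahnSeries.mem_support]; rintro h0; exact hk (h0 ▸ zero_mem _)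
  have hBwf : B.IsWF := x.isWF_support.mono hBsub
  have hBne : B.Nonempty := hx
  set K := hBwf.min hBne with hK
  have hKmem : x.coeff K ∉ GaloisRep.ratLocalizedAt ℓ := hBwf.min_mem hBne
  have hKmin : ∀ k < K, x.coeff k ∈ GaloisRep.ratLocalizedAt ℓ := fun k hk => by
    by_contra hk'
    exact (hBwf.not_lt_min hBne hk') hk
  let x' : LaurentSeries ℚ := ⟨fun k => if K ≤ k then x.coeff k else 0, x.isPWO_support.mono (by
    intro k hk
    simp only [Function.mem_support, ne_eq, ite_eq_right_iff, not_forall] at hk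
    rw [HahnSeries.mem_support]; exact hk.2)⟩
  have hx'coeff : ∀ k, x'.coeff k = if K ≤ k then x.coeff k else 0 := fun k => rfl
  have hy : x - x' ∈ intSubring ℓ := by
    rw [mem_intSubring_iff]
    intro k
    rw [HahnSeries.coeff_sub, hx'coeff]
    split_ifs with hk
    · rw [sub_self]; exact zero_mem _
    · rw [sub_zero]; exact hKmin k (not_le.mp hk)
  have hx'K : x'.coeff K = x.coeff K := by rw [hx'coeff, if_pos le_rfl]
  have hxK0 : x.coeff K ≠ 0 := by rintro h0; exact hKmem (h0 ▸ zero_mem _)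
  have hx'ne : x' ≠ 0 := by
    intro h0
    apply hxK0
    rw [← hx'K, h0]; rfl
  have hord : x'.order = K := by
    apply le_antisymm
    · exact HahnSeries.order_le_of_coeff_ne_zero (by rw [hx'K]; exact hxK0)
    · by_contra hlt
      have h1 : x'.coeff x'.order ≠ 0 := fun h0 => hx'ne (HahnSeries.coeff_order_eq_zero.mp h0)
      rw [hx'coeff, if_neg hlt] at h1
      exact h1 rfl
  have hlead : x'.leadingCoeff = x.coeff K := by
    rw [HahnSeries.leadingCoeff_eq, hord, hx'K]
  have hmem : ∀ m : ℕ, d * x' ^ m ∈ intSubring ℓ := by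
    intro m
    have e : x' = x + -(x - x') := by ring
    rw [e, add_pow, Finset.mul_sum]
    refine Subring.sum_mem _ fun i _ => ?_
    have e2 : d * (x ^ i * (-(x - x')) ^ (m - i) * (m.choose i : LaurentSeries ℚ))
        = (d * x ^ i) * (-(x - x')) ^ (m - i) * (m.choose i : LaurentSeries ℚ) := by ring
    rw [e2]
    exact Subring.mul_mem _ (Subring.mul_mem _ (h i)
      (Subring.pow_mem _ (Subring.neg_mem _ hy) _)) (natCast_mem _ _)
  refine not_forall_mul_pow_mem (HahnSeries.leadingCoeff_ne_zero.mpr hd) hKmem fun m => ?_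
  have h1 := mem_intSubring_iff.mp (hmem m) (d.order + (x' ^ m).order)
  rw [HahnSeries.coeff_mul_order_add_order, leadingCoeff_pow', hlead] at h1
  exact h1


variable (ℓ) in
/-- Quotients of `ℓ`-integral Laurent series. -/
def fracSubfield : Subfield (LaurentSeries ℚ) where
  carrier := {x | ∃ b ∈ intSubring ℓ, b ≠ 0 ∧ x * b ∈ intSubring ℓ}
  mul_mem' := by
    rintro x y ⟨b, hb, hb0, hxb⟩ ⟨c, hc, hc0, hyc⟩
    refine ⟨b * c, Subring.mul_mem _ hb hc, mul_ne_zero hb0 hc0, ?_⟩
    have : x * y * (b * c) = (x * b) * (y * c) := by ring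
    rw [this]; exact Subring.mul_mem _ hxb hyc
  one_mem' := ⟨1, Subring.one_mem _, one_ne_zero, by rw [mul_one]; exact Subring.one_mem _⟩
  add_mem' := by
    rintro x y ⟨b, hb, hb0, hxb⟩ ⟨c, hc, hc0, hyc⟩
    refine ⟨b * c, Subring.mul_mem _ hb hc, mul_ne_zero hb0 hc0, ?_⟩
    have : (x + y) * (b * c) = (x * b) * c + (y * c) * b := by ring
    rw [this]; exact Subring.add_mem _ (Subring.mul_mem _ hxb hc) (Subring.mul_mem _ hyc hb)
  zero_mem' := ⟨1, Subring.one_mem _, one_ne_zero, by rw [mul_one]; exact Subring.zero_mem _⟩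
  neg_mem' := by
    rintro x ⟨b, hb, hb0, hxb⟩
    refine ⟨b, hb, hb0, ?_⟩
    rw [neg_mul]; exact Subring.neg_mem _ hxb
  inv_mem' := by
    rintro x ⟨b, hb, hb0, hxb⟩
    rcases eq_or_ne x 0 with rfl | hx0
    · rw [inv_zero]
      exact ⟨1, Subring.one_mem _, one_ne_zero, by rw [mul_one]; exact Subring.zero_mem _⟩
    · refine ⟨x * b, hxb, mul_ne_zero hx0 hb0, ?_⟩
      rw [← mul_assoc, inv_mul_cancel₀ hx0, one_mul]; exact hb

omit [Fact ℓ.Prime] in
theorem intSubring_le_fracSubfield {x : LaurentSeries ℚ} (hx : x ∈ intSubring ℓ) :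
    x ∈ fracSubfield ℓ :=
  ⟨1, Subring.one_mem _, one_ne_zero, by rw [mul_one]; exact hx⟩

/-- A quotient of `ℓ`-integral series which is integral over the `ℓ`-integral series is
`ℓ`-integral. -/
theorem mem_intSubring_of_isIntegral {x : LaurentSeries ℚ} (hx : x ∈ fracSubfield ℓ)
    (hint : IsIntegral (intSubring ℓ) x) : x ∈ intSubring ℓ := by
  obtain ⟨b, hb, hb0, hxb⟩ := hx
  obtain ⟨p, hp, hpx⟩ := hint
  refine mem_intSubring_of_forall_mul_pow_mem (pow_ne_zero p.natDegree hb0) fun m => ?_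
  have hpx' : Polynomial.aeval x p = 0 := hpx
  have h1 : x ^ m = Polynomial.aeval x (Polynomial.X ^ m %ₘ p) := by
    rw [Polynomial.aeval_modByMonic_eq_self_of_root hpx', map_pow, Polynomial.aeval_X]
  have hdeg : (Polynomial.X ^ m %ₘ p).natDegree ≤ p.natDegree :=
    Polynomial.natDegree_modByMonic_le _ hp
  rw [h1, Polynomial.aeval_eq_sum_range, Finset.mul_sum]
  refine Subring.sum_mem _ fun i hi => ?_
  have hi' : i ≤ p.natDegree := (Finset.mem_range_succ_iff.mp hi).trans hdeg
  have e : b ^ p.natDegree * ((Polynomial.X ^ m %ₘ p).coeff i • x ^ i)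
      = ((Polynomial.X ^ m %ₘ p).coeff i : LaurentSeries ℚ) * (b ^ (p.natDegree - i) * (x * b) ^ i) := by
    have hb' : b ^ p.natDegree = b ^ (p.natDegree - i) * b ^ i := by
      rw [← _root_.pow_add, Nat.sub_add_cancel hi']
    rw [hb', Subring.smul_def, smul_eq_mul, mul_pow]
    ring
  rw [e]
  exact Subring.mul_mem _ (SetLike.coe_mem _)
    (Subring.mul_mem _ (Subring.pow_mem _ hb _) (Subring.pow_mem _ hxb _))


section Chart

open ModularCurve.IgusaScheme

variable (N : ℕ) [NeZero N]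


omit [Fact ℓ.Prime] in
/-- The generators `j(q^d)` have integer coefficients. -/
theorem qExpand_jq_mem_intSubring (d : ℕ) [NeZero d] : qExpand ℚ d jq ∈ intSubring ℓ := by
  have h : qExpand ℚ d jq = coeffMap (Int.castRingHom ℚ) (qExpand ℤ d (jqModC ℤ)) := by
    rw [coeffMap_qExpand, coeffMap_jqModC]; rfl
  rw [h]; exact coeffMap_intCast_mem_intSubring _

omit [Fact ℓ.Prime] [NeZero N] in
theorem mem_fracSubfield_of_mem_full {y : LaurentSeries ℚ}
    (hy : y ∈ IntermediateField.adjoin ℚ (divisorExpansions N)) : y ∈ fracSubfield ℓ := by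
  induction hy using IntermediateField.adjoin_induction with
  | mem y hy =>
    obtain ⟨d, hd, -, rfl⟩ := hy
    exact intSubring_le_fracSubfield (qExpand_jq_mem_intSubring d)
  | algebraMap c =>
    rw [eq_ratCast (algebraMap ℚ (LaurentSeries ℚ)) c]
    exact SubfieldClass.ratCast_mem _ c
  | add _ _ _ _ h1 h2 => exact add_mem h1 h2
  | inv _ _ h => exact inv_mem h
  | mul _ _ _ _ h1 h2 => exact mul_mem h1 h2

omit [Fact ℓ.Prime] [NeZero N] in
theorem coe_mem_fracSubfield (x : ↥(modularFunctionFieldFull N)) :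
    (x : LaurentSeries ℚ) ∈ fracSubfield ℓ :=
  mem_fracSubfield_of_mem_full N x.2

omit [Fact ℓ.Prime] [NeZero N] in
theorem coe_algebraMap_ratLocalizedAt (r : ↥(GaloisRep.ratLocalizedAt ℓ)) :
    ((algebraMap ↥(GaloisRep.ratLocalizedAt ℓ) ↥(modularFunctionFieldFull N) r :
      ↥(modularFunctionFieldFull N)) : LaurentSeries ℚ) = HahnSeries.single 0 (r : ℚ) := by
  have h1 : algebraMap ↥(GaloisRep.ratLocalizedAt ℓ) ↥(modularFunctionFieldFull N) r
      = algebraMap ℚ ↥(modularFunctionFieldFull N) (r : ℚ) := rfl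
  rw [h1, eq_ratCast (algebraMap ℚ ↥(modularFunctionFieldFull N)), ← algebraMap_apply_eq_single,
    eq_ratCast (algebraMap ℚ (LaurentSeries ℚ))]
  rfl

/-- The inclusion of the function field into the Laurent series, as a ring homomorphism. -/
def fullVal : ↥(modularFunctionFieldFull N) →+* LaurentSeries ℚ where
  toFun := Subtype.val
  map_one' := rfl
  map_mul' _ _ := rfl
  map_zero' := rfl
  map_add' _ _ := rfl

omit [Fact ℓ.Prime] [NeZero N] in
theorem coe_mem_intSubring_of_mem_adjoin {S : Set ↥(modularFunctionFieldFull N)}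
    (hS : ∀ s ∈ S, (s : LaurentSeries ℚ) ∈ intSubring ℓ) {y : ↥(modularFunctionFieldFull N)}
    (hy : y ∈ Algebra.adjoin ↥(GaloisRep.ratLocalizedAt ℓ) S) : (y : LaurentSeries ℚ) ∈ intSubring ℓ := by
  induction hy using Algebra.adjoin_induction with
  | mem y hy => exact hS y hy
  | algebraMap r =>
    rw [coe_algebraMap_ratLocalizedAt]
    exact single_mem_intSubring r.2
  | add _ _ _ _ h1 h2 => exact Subring.add_mem _ h1 h2
  | mul _ _ _ _ h1 h2 => exact Subring.mul_mem _ h1 h2

/-- **(I4)** Elements of a chart algebra generated by `ℓ`-integral series are `ℓ`-integral. -/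
theorem coe_mem_intSubring_of_mem_chartAlg {S : Set ↥(modularFunctionFieldFull N)}
    (hS : ∀ s ∈ S, (s : LaurentSeries ℚ) ∈ intSubring ℓ) {x : ↥(modularFunctionFieldFull N)}
    (hx : x ∈ chartAlg N ℓ S) : (x : LaurentSeries ℚ) ∈ intSubring ℓ := by
  refine mem_intSubring_of_isIntegral (coe_mem_fracSubfield N x) ?_
  rw [mem_chartAlg_iff] at hx
  let φ : Algebra.adjoin ↥(GaloisRep.ratLocalizedAt ℓ) S →+* intSubring ℓ :=
    { toFun := fun y => ⟨((y : ↥(modularFunctionFieldFull N)) : LaurentSeries ℚ), coe_mem_intSubring_of_mem_adjoin N hS y.2⟩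
      map_one' := rfl
      map_mul' := fun _ _ => rfl
      map_zero' := rfl
      map_add' := fun _ _ => rfl }
  exact IsIntegral.map_of_comp_eq φ (fullVal N) (by ext y; rfl) hx

/-- **(I4)**, coefficient form. -/
theorem coeff_mem_of_mem_chartAlg {S : Set ↥(modularFunctionFieldFull N)}
    (hS : ∀ s ∈ S, ∀ k : ℤ, (s : LaurentSeries ℚ).coeff k ∈ GaloisRep.ratLocalizedAt ℓ) {x : ↥(modularFunctionFieldFull N)}
    (hx : x ∈ chartAlg N ℓ S) (k : ℤ) :
    (x : LaurentSeries ℚ).coeff k ∈ GaloisRep.ratLocalizedAt ℓ :=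
  mem_intSubring_iff.mp
    (coe_mem_intSubring_of_mem_chartAlg N (fun s hs => mem_intSubring_iff.mpr (hS s hs)) hx) k

end Chart


section JInstances

omit [Fact ℓ.Prime] in
theorem jq_mem_intSubring : jq ∈ intSubring ℓ := by
  have h : jq = coeffMap (Int.castRingHom ℚ) (jqModC ℤ) := by rw [coeffMap_jqModC]; rfl
  rw [h]; exact coeffMap_intCast_mem_intSubring _

omit [Fact ℓ.Prime] in
theorem jq_inv_mem_intSubring : jq⁻¹ ∈ intSubring ℓ := by
  set u : PowerSeries ℤ := jNum.map (Int.castRingHom ℤ) with hu_def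
  have hu : PowerSeries.constantCoeff u = 1 := by
    rw [hu_def, ← PowerSeries.coeff_zero_eq_constantCoeff, PowerSeries.coeff_map,
      PowerSeries.coeff_zero_eq_constantCoeff, constantCoeff_jNum]
    simp
  set J' : LaurentSeries ℤ :=
    HahnSeries.single (1 : ℤ) 1 * HahnSeries.ofPowerSeries ℤ ℤ (u.invOfUnit 1) with hJ'
  have hJ : jqModC ℤ * J' = 1 := by
    have h1 : HahnSeries.ofPowerSeries ℤ ℤ u * HahnSeries.ofPowerSeries ℤ ℤ (u.invOfUnit 1) = 1 := by
      rw [← map_mul, PowerSeries.mul_invOfUnit u 1 (by rw [hu]; rfl), map_one]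
    have h2 : (HahnSeries.single (-1 : ℤ) (1 : ℤ) : LaurentSeries ℤ) * HahnSeries.single (1 : ℤ) 1
        = 1 := by
      rw [HahnSeries.single_mul_single]
      simp
    calc jqModC ℤ * J'
        = (HahnSeries.single (-1 : ℤ) (1 : ℤ) * HahnSeries.single (1 : ℤ) 1) *
          (HahnSeries.ofPowerSeries ℤ ℤ u * HahnSeries.ofPowerSeries ℤ ℤ (u.invOfUnit 1)) := by
          rw [hJ', jqModC]; ring
      _ = 1 := by rw [h1, h2, one_mul]
  have h3 : jq * coeffMap (Int.castRingHom ℚ) J' = 1 := by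
    have := congrArg (coeffMap (Int.castRingHom ℚ)) hJ
    rw [map_mul, coeffMap_jqModC, map_one] at this
    exact this
  rw [inv_eq_of_mul_eq_one_right h3]
  exact coeffMap_intCast_mem_intSubring _

variable (N : ℕ) [NeZero N]

open ModularCurve.IgusaScheme

omit [Fact ℓ.Prime] in
theorem hS_fin : ∀ s ∈ ({jFull N} : Set ↥(modularFunctionFieldFull N)),
    (s : LaurentSeries ℚ) ∈ intSubring ℓ := by
  rintro s rfl
  exact jq_mem_intSubring

omit [Fact ℓ.Prime] in
theorem hS_inf : ∀ s ∈ ({(jFull N)⁻¹} : Set ↥(modularFunctionFieldFull N)),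
    (s : LaurentSeries ℚ) ∈ intSubring ℓ := by
  rintro s rfl
  exact jq_inv_mem_intSubring

omit [Fact ℓ.Prime] in
theorem hS_mid : ∀ s ∈ ({jFull N, (jFull N)⁻¹} : Set ↥(modularFunctionFieldFull N)),
    (s : LaurentSeries ℚ) ∈ intSubring ℓ := by
  rintro s (rfl | rfl)
  · exact jq_mem_intSubring
  · exact jq_inv_mem_intSubring

end JInstances

end Fermat.Agent.S28.H85
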