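/-
S28 package RED (helper85): reduction modulo `ℓ` of `ℓ`-integral `q`-expansions and M6.

Main results (namespace `Fermat.Agent.S28.H85`):
* `res ℓ : ℤ_(ℓ) →+* ZMod ℓ`, `res_eq_zero_iff`, `res_surjective`, `ringHom_ext_ratLocalizedAt`;
* `redSeries ℓ : intSubring ℓ →+* LaurentSeries (ZMod ℓ)`, `redSeries_coeff`,
  `redSeries_eq_zero_iff`;
* `redHom ℓ N hS : chartAlg N ℓ S →+* LaurentSeries (ZMod ℓ)`, `redHom_coeff`,
  `redHom_eq_zero_iff`, `exists_red_of_qep`, `exists_red_chartAlgMid`;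
* **M6**: `isDomain_tensor_of_red`, `nontrivial_tensor_of_ringHom` (skeleton shapes), and the
  chart corollaries `isDomain_chartAlg_tensor_of_qep`, `nontrivial_chartAlgMid_tensor`.
-/
import Mathlib
import Fermat.Agent.S28.H85.LInt
set_option autoImplicit false

noncomputable section

open HahnSeries ModularCurve TensorProduct

namespace Fermat.Agent.S28.H85

variable (ℓ : ℕ) [Fact ℓ.Prime]

/-! ### The residue map `ℤ_(ℓ) → 𝔽_ℓ` -/

omit [Fact ℓ.Prime] in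
theorem natCast_den_ne_zero [Fact ℓ.Prime] (r : ↥(GaloisRep.ratLocalizedAt ℓ)) :
    (((r : ℚ).den : ℕ) : ZMod ℓ) ≠ 0 := by
  rw [Ne, ZMod.natCast_eq_zero_iff]
  exact mem_ratLocalizedAt_iff_not_dvd.mp r.2

/-- The residue map `ℤ_(ℓ) → 𝔽_ℓ`. -/
def res : ↥(GaloisRep.ratLocalizedAt ℓ) →+* ZMod ℓ where
  toFun r := ((r : ℚ) : ZMod ℓ)
  map_one' := by simp
  map_zero' := by simp
  map_mul' r s := by
    show (((r : ℚ) * (s : ℚ) : ℚ) : ZMod ℓ) = _
    exact Rat.cast_mul_of_ne_zero (natCast_den_ne_zero ℓ r) (natCast_den_ne_zero ℓ s)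
  map_add' r s := by
    show (((r : ℚ) + (s : ℚ) : ℚ) : ZMod ℓ) = _
    exact Rat.cast_add_of_ne_zero (natCast_den_ne_zero ℓ r) (natCast_den_ne_zero ℓ s)

theorem res_apply (r : ↥(GaloisRep.ratLocalizedAt ℓ)) : res ℓ r = ((r : ℚ) : ZMod ℓ) := rfl

theorem res_surjective : Function.Surjective (res ℓ) := by
  intro c
  obtain ⟨n, rfl⟩ := ZMod.natCast_zmod_surjective c
  exact ⟨(n : ↥(GaloisRep.ratLocalizedAt ℓ)), map_natCast (res ℓ) n⟩

theorem res_natCast_self : res ℓ (ℓ : ↥(GaloisRep.ratLocalizedAt ℓ)) = 0 := by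
  rw [map_natCast]; exact ZMod.natCast_self ℓ

theorem inv_natCast_mem {d : ℕ} (hd : ¬ ℓ ∣ d) : ((d : ℚ)⁻¹) ∈ GaloisRep.ratLocalizedAt ℓ := by
  rw [mem_ratLocalizedAt_iff_not_dvd, Rat.inv_natCast_den]
  split_ifs with h
  · exact (Fact.out : ℓ.Prime).one_lt.ne' ∘ Nat.dvd_one.mp
  · exact hd

theorem res_eq_zero_iff (r : ↥(GaloisRep.ratLocalizedAt ℓ)) :
    res ℓ r = 0 ↔ ∃ c ∈ GaloisRep.ratLocalizedAt ℓ, (r : ℚ) = (ℓ : ℚ) * c := by
  constructor
  · intro h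
    rw [res_apply, Rat.cast_def, div_eq_zero_iff] at h
    rcases h with h | h
    · rw [ZMod.intCast_zmod_eq_zero_iff_dvd] at h
      obtain ⟨m, hm⟩ := h
      have hd : ¬ ℓ ∣ (r : ℚ).den := mem_ratLocalizedAt_iff_not_dvd.mp r.2
      refine ⟨(m : ℚ) * ((r : ℚ).den : ℚ)⁻¹,
        Subring.mul_mem _ (intCast_mem _ m) (inv_natCast_mem ℓ hd), ?_⟩
      calc (r : ℚ) = ((r : ℚ).num : ℚ) / ((r : ℚ).den : ℚ) := (Rat.num_div_den _).symm
        _ = (ℓ : ℚ) * ((m : ℚ) * ((r : ℚ).den : ℚ)⁻¹) := by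
          rw [hm]; push_cast; rw [div_eq_mul_inv]; ring
    · exact absurd h (natCast_den_ne_zero ℓ r)
  · rintro ⟨c, hc, h⟩
    have h2 : r = (ℓ : ↥(GaloisRep.ratLocalizedAt ℓ)) * ⟨c, hc⟩ := Subtype.ext (by rw [h]; rfl)
    rw [h2, map_mul, res_natCast_self, zero_mul]

/-- Ring homomorphisms out of `ℤ_(ℓ)` are unique. -/
theorem ringHom_ext_ratLocalizedAt {T : Type*} [Ring T] (φ ψ : ↥(GaloisRep.ratLocalizedAt ℓ) →+* T) :
    φ = ψ := by
  ext r
  set d : ℕ := (r : ℚ).den with hd_def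
  have hd : ¬ ℓ ∣ d := mem_ratLocalizedAt_iff_not_dvd.mp r.2
  set u : ↥(GaloisRep.ratLocalizedAt ℓ) := ⟨(d : ℚ)⁻¹, inv_natCast_mem ℓ hd⟩ with hu
  have hd0 : (d : ℚ) ≠ 0 := Nat.cast_ne_zero.mpr (Rat.den_ne_zero _)
  have hdu : (d : ↥(GaloisRep.ratLocalizedAt ℓ)) * u = 1 := by
    apply Subtype.ext
    show (d : ℚ) * (d : ℚ)⁻¹ = 1
    exact mul_inv_cancel₀ hd0
  have hrd : r * (d : ↥(GaloisRep.ratLocalizedAt ℓ)) = (((r : ℚ).num : ℤ) : ↥(GaloisRep.ratLocalizedAt ℓ)) := by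
    apply Subtype.ext
    show (r : ℚ) * (d : ℚ) = (((r : ℚ).num : ℤ) : ℚ)
    exact Rat.mul_den_eq_num _
  have hφd : φ (d : ↥(GaloisRep.ratLocalizedAt ℓ)) = (d : T) := map_natCast φ d
  have hψd : ψ (d : ↥(GaloisRep.ratLocalizedAt ℓ)) = (d : T) := map_natCast ψ d
  have hφ1 : (d : T) * φ u = 1 := by rw [← hφd, ← map_mul, hdu, map_one]
  have hψ1 : (d : T) * ψ u = 1 := by rw [← hψd, ← map_mul, hdu, map_one]
  have hφ1' : φ u * (d : T) = 1 := by rw [← hφd, ← map_mul, mul_comm, hdu, map_one]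
  have huu : φ u = ψ u := by
    calc φ u = φ u * ((d : T) * ψ u) := by rw [hψ1, mul_one]
      _ = (φ u * (d : T)) * ψ u := by rw [mul_assoc]
      _ = ψ u := by rw [hφ1', one_mul]
  have hφr : φ r = (((r : ℚ).num : ℤ) : T) * φ u := by
    have : φ r = φ (r * (d : ↥(GaloisRep.ratLocalizedAt ℓ))) * φ u := by
      rw [map_mul, mul_assoc, hφd, hφ1, mul_one]
    rw [this, hrd, map_intCast]
  have hψr : ψ r = (((r : ℚ).num : ℤ) : T) * ψ u := by
    have : ψ r = ψ (r * (d : ↥(GaloisRep.ratLocalizedAt ℓ))) * ψ u := by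
      rw [map_mul, mul_assoc, hψd, hψ1, mul_one]
    rw [this, hrd, map_intCast]
  rw [hφr, hψr, huu]


/-! ### Reduction of `ℓ`-integral series -/

omit [Fact ℓ.Prime] in
theorem coeffMap_subtype_injective :
    Function.Injective (coeffMap (GaloisRep.ratLocalizedAt ℓ).subtype) := by
  intro x y h
  ext k
  have h1 := congrArg (fun z => z.coeff k) h
  simp only [coeffMap_coeff] at h1
  exact h1

/-- Series over `ℤ_(ℓ)` are the same as `ℓ`-integral series over `ℚ`. -/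
def seriesEquiv : LaurentSeries ↥(GaloisRep.ratLocalizedAt ℓ) ≃+* intSubring ℓ :=
  RingEquiv.ofBijective (coeffMap (GaloisRep.ratLocalizedAt ℓ).subtype).rangeRestrict
    ⟨fun _ _ h => coeffMap_subtype_injective ℓ (congrArg Subtype.val h),
      RingHom.rangeRestrict_surjective _⟩

omit [Fact ℓ.Prime] in
theorem coe_seriesEquiv (y : LaurentSeries ↥(GaloisRep.ratLocalizedAt ℓ)) :
    ((seriesEquiv ℓ y : intSubring ℓ) : LaurentSeries ℚ)
      = coeffMap (GaloisRep.ratLocalizedAt ℓ).subtype y := rfl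

/-- Reduction modulo `ℓ` of an `ℓ`-integral Laurent series. -/
def redSeries : intSubring ℓ →+* LaurentSeries (ZMod ℓ) :=
  (coeffMap (res ℓ)).comp (seriesEquiv ℓ).symm.toRingHom

theorem redSeries_coeff (x : intSubring ℓ) (k : ℤ) :
    (redSeries ℓ x).coeff k = (((x : LaurentSeries ℚ).coeff k : ℚ) : ZMod ℓ) := by
  obtain ⟨y, rfl⟩ := (seriesEquiv ℓ).surjective x
  show (coeffMap (res ℓ) ((seriesEquiv ℓ).symm (seriesEquiv ℓ y))).coeff k = _
  rw [RingEquiv.symm_apply_apply, coeffMap_coeff, coe_seriesEquiv, coeffMap_coeff]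
  rfl

theorem redSeries_eq_zero_iff (x : intSubring ℓ) :
    redSeries ℓ x = 0 ↔
      ∀ k : ℤ, ∃ c ∈ GaloisRep.ratLocalizedAt ℓ, (x : LaurentSeries ℚ).coeff k = (ℓ : ℚ) * c := by
  have hx := mem_intSubring_iff.mp x.2
  have key : ∀ k : ℤ, (redSeries ℓ x).coeff k = res ℓ ⟨(x : LaurentSeries ℚ).coeff k, hx k⟩ :=
    fun k => redSeries_coeff ℓ x k
  constructor
  · intro h k
    have h1 : res ℓ ⟨(x : LaurentSeries ℚ).coeff k, hx k⟩ = 0 := by
      rw [← key, h]; rfl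
    exact (res_eq_zero_iff ℓ _).mp h1
  · intro h
    ext k
    rw [key]
    exact (res_eq_zero_iff ℓ _).mpr (h k)

theorem redSeries_coeffMap_intCast (y : LaurentSeries ℤ) :
    redSeries ℓ ⟨coeffMap (Int.castRingHom ℚ) y, coeffMap_intCast_mem_intSubring y⟩
      = coeffMap (Int.castRingHom (ZMod ℓ)) y := by
  ext k
  rw [redSeries_coeff, coeffMap_coeff, coeffMap_coeff]
  simp

/-! ### Reduction of the chart algebras -/

section Chart

open ModularCurve.IgusaScheme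

variable (N : ℕ) [NeZero N]

/-- The `q`-expansion of an element of a chart algebra, as an `ℓ`-integral series. -/
def chartToInt {S : Set ↥(modularFunctionFieldFull N)}
    (hS : ∀ s ∈ S, (s : LaurentSeries ℚ) ∈ intSubring ℓ) : ↥(chartAlg N ℓ S) →+* intSubring ℓ where
  toFun x := ⟨((x : ↥(modularFunctionFieldFull N)) : LaurentSeries ℚ),
    coe_mem_intSubring_of_mem_chartAlg N hS x.2⟩
  map_one' := rfl
  map_zero' := rfl
  map_mul' _ _ := rfl
  map_add' _ _ := rfl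

/-- Reduction modulo `ℓ` of the `q`-expansion, on a chart algebra. -/
def redHom {S : Set ↥(modularFunctionFieldFull N)}
    (hS : ∀ s ∈ S, (s : LaurentSeries ℚ) ∈ intSubring ℓ) :
    ↥(chartAlg N ℓ S) →+* LaurentSeries (ZMod ℓ) :=
  (redSeries ℓ).comp (chartToInt ℓ N hS)

theorem redHom_coeff {S : Set ↥(modularFunctionFieldFull N)}
    (hS : ∀ s ∈ S, (s : LaurentSeries ℚ) ∈ intSubring ℓ) (x : ↥(chartAlg N ℓ S)) (k : ℤ) :
    (redHom ℓ N hS x).coeff k
      = (((((x : ↥(modularFunctionFieldFull N)) : LaurentSeries ℚ).coeff k : ℚ)) : ZMod ℓ) :=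
  redSeries_coeff ℓ _ k

theorem redHom_eq_zero_iff {S : Set ↥(modularFunctionFieldFull N)}
    (hS : ∀ s ∈ S, (s : LaurentSeries ℚ) ∈ intSubring ℓ) (x : ↥(chartAlg N ℓ S)) :
    redHom ℓ N hS x = 0 ↔
      ∀ k : ℤ, ∃ c ∈ GaloisRep.ratLocalizedAt ℓ,
        ((x : ↥(modularFunctionFieldFull N)) : LaurentSeries ℚ).coeff k = (ℓ : ℚ) * c :=
  redSeries_eq_zero_iff ℓ _

/-- The reduction hom in the shape of the skeleton's M5 deliverable, from the `q`-expansion
principle for the chart. -/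
theorem exists_red_of_qep {S : Set ↥(modularFunctionFieldFull N)}
    (hS : ∀ s ∈ S, (s : LaurentSeries ℚ) ∈ intSubring ℓ)
    (hqep : ∀ x ∈ chartAlg N ℓ S,
      (∀ k : ℤ, ∃ c ∈ GaloisRep.ratLocalizedAt ℓ, (x : LaurentSeries ℚ).coeff k = (ℓ : ℚ) * c) →
        ∃ y ∈ chartAlg N ℓ S, x = (ℓ : ↥(modularFunctionFieldFull N)) * y) :
    ∃ red : ↥(chartAlg N ℓ S) →+* LaurentSeries (ZMod ℓ),
      ∀ x, red x = 0 → ∃ y, x = (ℓ : ↥(chartAlg N ℓ S)) * y := by
  refine ⟨redHom ℓ N hS, fun x hx => ?_⟩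
  obtain ⟨y, hy, hxy⟩ := hqep x x.2 ((redHom_eq_zero_iff ℓ N hS x).mp hx)
  exact ⟨⟨y, hy⟩, Subtype.ext hxy⟩

end Chart

/-- M5 deliverable for the overlap chart (exact skeleton shape). -/
theorem exists_red_chartAlgMid (N : ℕ) [NeZero N] (ℓ : ℕ) [Fact ℓ.Prime] :
    Nonempty (↥(ModularCurve.IgusaScheme.chartAlgMid N ℓ) →+* LaurentSeries (ZMod ℓ)) :=
  ⟨redHom ℓ N (hS_mid N)⟩

section Tensor

variable (B : Type) [CommRing B] [Algebra ↥(GaloisRep.ratLocalizedAt ℓ) B]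
  (K : Type) [Field K] [CharP K ℓ] [Algebra ↥(GaloisRep.ratLocalizedAt ℓ) K]

/-- The structure map of a characteristic `ℓ` field factors through the residue map. -/
theorem algebraMap_eq_castHom_res (r : ↥(GaloisRep.ratLocalizedAt ℓ)) :
    algebraMap ↥(GaloisRep.ratLocalizedAt ℓ) K r = ZMod.castHom (dvd_refl ℓ) K (res ℓ r) :=
  congrFun (congrArg DFunLike.coe (ringHom_ext_ratLocalizedAt ℓ
    (algebraMap ↥(GaloisRep.ratLocalizedAt ℓ) K) ((ZMod.castHom (dvd_refl ℓ) K).comp (res ℓ)))) r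

/-- The first factor of the comparison map. -/
def tensorLeft (red : B →+* LaurentSeries (ZMod ℓ)) :
    B →ₐ[↥(GaloisRep.ratLocalizedAt ℓ)] LaurentSeries K :=
  { (coeffMap (ZMod.castHom (dvd_refl ℓ) K)).comp red with
    commutes' := fun r => congrFun (congrArg DFunLike.coe (ringHom_ext_ratLocalizedAt ℓ
      (((coeffMap (ZMod.castHom (dvd_refl ℓ) K)).comp red).comp
        (algebraMap ↥(GaloisRep.ratLocalizedAt ℓ) B))
      (algebraMap ↥(GaloisRep.ratLocalizedAt ℓ) (LaurentSeries K)))) r }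

/-- The second factor of the comparison map. -/
def tensorRight : K →ₐ[↥(GaloisRep.ratLocalizedAt ℓ)] LaurentSeries K :=
  { (HahnSeries.C : K →+* LaurentSeries K) with
    commutes' := fun r => congrFun (congrArg DFunLike.coe (ringHom_ext_ratLocalizedAt ℓ
      ((HahnSeries.C : K →+* LaurentSeries K).comp (algebraMap ↥(GaloisRep.ratLocalizedAt ℓ) K))
      (algebraMap ↥(GaloisRep.ratLocalizedAt ℓ) (LaurentSeries K)))) r }

/-- The comparison map `B ⊗ K → K((q))`. -/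
def tensorMap (red : B →+* LaurentSeries (ZMod ℓ)) :
    B ⊗[↥(GaloisRep.ratLocalizedAt ℓ)] K →ₐ[↥(GaloisRep.ratLocalizedAt ℓ)] LaurentSeries K :=
  Algebra.TensorProduct.productMap (tensorLeft ℓ B K red) (tensorRight ℓ K)

theorem tensorMap_tmul_coeff (red : B →+* LaurentSeries (ZMod ℓ)) (b : B) (x : K) (k : ℤ) :
    (tensorMap ℓ B K red (b ⊗ₜ x)).coeff k = ZMod.castHom (dvd_refl ℓ) K ((red b).coeff k) * x := by
  show ((tensorLeft ℓ B K red b) * (tensorRight ℓ K x)).coeff k = _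
  show ((coeffMap (ZMod.castHom (dvd_refl ℓ) K) (red b)) * (HahnSeries.C x)).coeff k = _
  rw [mul_comm, HahnSeries.C_mul_eq_smul, HahnSeries.coeff_smul, coeffMap_coeff, smul_eq_mul, mul_comm]


theorem tensorMap_injective (red : B →+* LaurentSeries (ZMod ℓ))
    (hker : ∀ x, red x = 0 → ∃ y, x = (ℓ : B) * y) :
    Function.Injective (tensorMap ℓ B K red) := by
  let _ : Algebra (ZMod ℓ) K := (ZMod.castHom (dvd_refl ℓ) K).toAlgebra
  let 𝔟 := Module.Basis.ofVectorSpace (ZMod ℓ) K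
  let Ψ : (Module.Basis.ofVectorSpaceIndex (ZMod ℓ) K →₀ B) →+ B ⊗[↥(GaloisRep.ratLocalizedAt ℓ)] K :=
    Finsupp.liftAddHom
      (fun i => ((TensorProduct.mk ↥(GaloisRep.ratLocalizedAt ℓ) B K).flip (𝔟 i)).toAddMonoidHom)
  have hΨ : ∀ c : Module.Basis.ofVectorSpaceIndex (ZMod ℓ) K →₀ B,
      Ψ c = c.sum (fun i b => b ⊗ₜ[↥(GaloisRep.ratLocalizedAt ℓ)] 𝔟 i) := fun c => rfl
  have hsmul : ∀ (r : ↥(GaloisRep.ratLocalizedAt ℓ)) (x : K), r • x = (res ℓ r) • x := by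
    intro r x
    rw [Algebra.smul_def, Algebra.smul_def, algebraMap_eq_castHom_res]; rfl
  have hsurj : ∀ t, t ∈ AddMonoidHom.mrange Ψ := by
    intro t
    induction t using TensorProduct.induction_on with
    | zero => exact zero_mem _
    | add t₁ t₂ h₁ h₂ => exact add_mem h₁ h₂
    | tmul b x =>
      have hx : x = ∑ i ∈ (𝔟.repr x).support, (𝔟.repr x i) • 𝔟 i := by
        conv_lhs => rw [← 𝔟.linearCombination_repr x, Finsupp.linearCombination_apply]
        rfl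
      rw [hx, TensorProduct.tmul_sum]
      refine sum_mem fun i _ => ?_
      obtain ⟨r, hr⟩ := res_surjective ℓ (𝔟.repr x i)
      rw [← hr, ← hsmul, TensorProduct.tmul_smul, TensorProduct.smul_tmul']
      exact ⟨Finsupp.single i (r • b), by rw [hΨ]; exact Finsupp.sum_single_index (zero_tmul _ _)⟩
  rw [injective_iff_map_eq_zero]
  intro t ht
  obtain ⟨c, rfl⟩ := hsurj t
  rw [hΨ, Finsupp.sum]
  refine Finset.sum_eq_zero fun i hi => ?_
  have hred : red (c i) = 0 := by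
    ext k
    have hk : (tensorMap ℓ B K red (Ψ c)).coeff k = 0 := by rw [ht]; rfl
    rw [hΨ, Finsupp.sum, map_sum, HahnSeries.coeff_sum] at hk
    have h2 : ∑ j ∈ c.support, ((red (c j)).coeff k) • 𝔟 j = 0 := by
      rw [← hk]
      refine Finset.sum_congr rfl fun j _ => ?_
      rw [tensorMap_tmul_coeff, Algebra.smul_def]; rfl
    exact linearIndependent_iff'.mp 𝔟.linearIndependent c.support
      (fun j => (red (c j)).coeff k) h2 i hi
  obtain ⟨y, hy⟩ := hker _ hred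
  have h3 : (ℓ : B) * y = (ℓ : ↥(GaloisRep.ratLocalizedAt ℓ)) • y := by
    rw [Nat.cast_smul_eq_nsmul, nsmul_eq_mul]
  have h4 : (ℓ : ↥(GaloisRep.ratLocalizedAt ℓ)) • (𝔟 i) = 0 := by
    rw [Nat.cast_smul_eq_nsmul, nsmul_eq_mul, CharP.cast_eq_zero, zero_mul]
  rw [hy, h3, TensorProduct.smul_tmul, h4, tmul_zero]

end Tensor

/-- **M6** (exact skeleton shape): if `red : B → 𝔽_ℓ((q))` has kernel `ℓ B`, then `B ⊗ K` is a
domain for every field `K` of characteristic `ℓ`. -/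
theorem isDomain_tensor_of_red (ℓ : ℕ) [Fact ℓ.Prime] (B : Type) [CommRing B]
    [Algebra ↥(GaloisRep.ratLocalizedAt ℓ) B]
    (red : B →+* LaurentSeries (ZMod ℓ)) (hker : ∀ x, red x = 0 → ∃ y, x = (ℓ : B) * y)
    (K : Type) [Field K] [CharP K ℓ] [Algebra ↥(GaloisRep.ratLocalizedAt ℓ) K] :
    IsDomain (B ⊗[↥(GaloisRep.ratLocalizedAt ℓ)] K) :=
  Function.Injective.isDomain (tensorMap ℓ B K red).toRingHom (tensorMap_injective ℓ B K red hker)

/-- **M6** (exact skeleton shape): a ring hom `B → 𝔽_ℓ((q))` makes `B ⊗ K` nontrivial. -/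
theorem nontrivial_tensor_of_ringHom (ℓ : ℕ) [Fact ℓ.Prime] (B : Type) [CommRing B]
    [Algebra ↥(GaloisRep.ratLocalizedAt ℓ) B]
    (red : B →+* LaurentSeries (ZMod ℓ))
    (K : Type) [Field K] [CharP K ℓ] [Algebra ↥(GaloisRep.ratLocalizedAt ℓ) K] :
    Nontrivial (B ⊗[↥(GaloisRep.ratLocalizedAt ℓ)] K) :=
  (tensorMap ℓ B K red).toRingHom.domain_nontrivial

/-! ### The charts of the Igusa scheme -/

section ChartTensor

open ModularCurve.IgusaScheme

variable (N : ℕ) [NeZero N]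
  (K : Type) [Field K] [CharP K ℓ] [Algebra ↥(GaloisRep.ratLocalizedAt ℓ) K]

/-- M6 for a chart: the `q`-expansion principle for the chart gives that its base change to any
field of characteristic `ℓ` is a domain. -/
theorem isDomain_chartAlg_tensor_of_qep {S : Set ↥(modularFunctionFieldFull N)}
    (hS : ∀ s ∈ S, (s : LaurentSeries ℚ) ∈ intSubring ℓ)
    (hqep : ∀ x ∈ chartAlg N ℓ S,
      (∀ k : ℤ, ∃ c ∈ GaloisRep.ratLocalizedAt ℓ, (x : LaurentSeries ℚ).coeff k = (ℓ : ℚ) * c) →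
        ∃ y ∈ chartAlg N ℓ S, x = (ℓ : ↥(modularFunctionFieldFull N)) * y) :
    IsDomain (↥(chartAlg N ℓ S) ⊗[↥(GaloisRep.ratLocalizedAt ℓ)] K) := by
  obtain ⟨red, hred⟩ := exists_red_of_qep ℓ N hS hqep
  exact isDomain_tensor_of_red ℓ ↥(chartAlg N ℓ S) red hred K

/-- The base change of the overlap chart to a field of characteristic `ℓ` is nontrivial. -/
theorem nontrivial_chartAlgMid_tensor :
    Nontrivial (↥(chartAlgMid N ℓ) ⊗[↥(GaloisRep.ratLocalizedAt ℓ)] K) :=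
  nontrivial_tensor_of_ringHom ℓ ↥(chartAlgMid N ℓ) (redHom ℓ N (hS_mid N)) K

end ChartTensor

end Fermat.Agent.S28.H85
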