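/-
S28 package M5, bridge (C4) — independent backup (helper85).

`exists_indep_of_le_relfinrank` : if `n ≤ [𝔽_ℓ(j̄(q^d) : d ∣ N) : 𝔽_ℓ(j̄(q^N))]` then there are `n`
elements of the characteristic-zero function field `F_N`, integral over `ℤ_(ℓ)[j(q^N)]`, which are
linearly independent modulo `ℓ` over `ℤ_(ℓ)[j(q^N)]` (statement in helper66's shape).

Auxiliary: `exists_linearIndependent_monomials` (pure field theory), `exists_lift_of_mem_closure`
(monomials in the `j̄(q^d)` lift), `evI`, `redSeries_evI` (reduction of `ℤ_(ℓ)[j(q^N)]`),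
`C_dvd_of_map_res_eq_zero`, `transcendental_jqNModC`.
-/
import Mathlib
import Fermat.Agent.S28.H85.Red
import Fermat.Agent.S28.H66.IntF
import Fermat.Agent.S28.H55.Crux
set_option autoImplicit false

noncomputable section

open HahnSeries ModularCurve IntermediateField Module

namespace Fermat.Agent.S28.H85

/-- In a finite extension `𝔽(S)/E` with `E ≤ 𝔽(S)`, any number `n ≤ [𝔽(S) : E]` of `E`-linearly
independent monomials in the generators can be found. -/
theorem exists_linearIndependent_monomials {𝔽 L : Type*} [Field 𝔽] [Field L] [Algebra 𝔽 L]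
    (E : IntermediateField 𝔽 L) (S : Set L) (hE : E ≤ IntermediateField.adjoin 𝔽 S) {n : ℕ}
    (hn : n ≤ IntermediateField.relfinrank E (IntermediateField.adjoin 𝔽 S)) :
    ∃ v : Fin n → L, (∀ i, v i ∈ Submonoid.closure S) ∧ LinearIndependent ↥E v := by
  rcases Nat.eq_zero_or_pos n with rfl | hpos
  · exact ⟨Fin.elim0, fun i => i.elim0, linearIndependent_empty_type⟩
  rw [relfinrank_eq_finrank_of_le hE, extendScalars_adjoin hE] at hn
  have hfin : Module.Finite ↥E ↥(IntermediateField.adjoin ↥E S) :=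
    Module.finite_of_finrank_pos (lt_of_lt_of_le hpos hn)
  have halg : ∀ x ∈ S, IsAlgebraic ↥E x := by
    intro x hx
    have h1 : IsAlgebraic ↥E (⟨x, subset_adjoin ↥E S hx⟩ : ↥(IntermediateField.adjoin ↥E S)) :=
      Algebra.IsAlgebraic.isAlgebraic _
    exact (IntermediateField.isAlgebraic_iff).mp h1
  have hsub : (IntermediateField.adjoin ↥E S).toSubalgebra = Algebra.adjoin ↥E S :=
    adjoin_toSubalgebra_of_isAlgebraic halg
  have hspan : Subalgebra.toSubmodule (IntermediateField.adjoin ↥E S).toSubalgebra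
      = Submodule.span ↥E (Submonoid.closure S : Set L) := by
    rw [hsub, Algebra.adjoin_eq_span]
  have hrank : finrank ↥E ↥(IntermediateField.adjoin ↥E S)
      = finrank ↥E ↥(Submodule.span ↥E (Submonoid.closure S : Set L)) := by
    rw [← hspan]; rfl
  have hfin' : Module.Finite ↥E ↥(Submodule.span ↥E (Submonoid.closure S : Set L)) := by
    rw [← hspan]; exact hfin
  obtain ⟨f, hf, -, hlin⟩ :=
    Submodule.exists_fun_fin_finrank_span_eq ↥E (Submonoid.closure S : Set L)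
  rw [hrank] at hn
  exact ⟨f ∘ Fin.castLE hn, fun i => hf _, hlin.comp _ (Fin.castLE_injective hn)⟩

section Lift

open ModularCurve.IgusaScheme Fermat.Agent.S28 Fermat.Agent.S28.H66

variable (N : ℕ) [NeZero N] (ℓ : ℕ) [Fact ℓ.Prime]

/-- The reduction of `j(q^d)` is the characteristic `ℓ` series `j(q^d)`. -/
theorem redSeries_jqd (d : ℕ) [NeZero d] :
    redSeries ℓ ⟨qExpand ℚ d jq, qExpand_jq_mem_intSubring d⟩
      = qExpand (ZMod ℓ) d (jqModC (ZMod ℓ)) := by
  have h : qExpand ℚ d jq = coeffMap (Int.castRingHom ℚ) (qExpand ℤ d (jqModC ℤ)) := by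
    rw [coeffMap_qExpand, coeffMap_jqModC]; rfl
  have h2 := redSeries_coeffMap_intCast ℓ (qExpand ℤ d (jqModC ℤ))
  have h3 : coeffMap (Int.castRingHom (ZMod ℓ)) (qExpand ℤ d (jqModC ℤ))
      = qExpand (ZMod ℓ) d (jqModC (ZMod ℓ)) := by
    rw [coeffMap_qExpand, coeffMap_jqModC]
  rw [← h3, ← h2]
  congr 1
  exact Subtype.ext h

/-- Monomials in the characteristic `ℓ` series `j(q^d)`, `d ∣ N`, lift to elements of `F_N` that
are integral over `ℤ_(ℓ)[j(q^N)]` and have `ℓ`-integral `q`-expansion. -/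
theorem exists_lift_of_mem_closure (hmod : HasModPolys) {y : LaurentSeries (ZMod ℓ)}
    (hy : y ∈ Submonoid.closure (divisorExpansionsC (ZMod ℓ) N)) :
    ∃ x : ↥(modularFunctionFieldFull N),
      IsIntegral ↥(Algebra.adjoin ↥(GaloisRep.ratLocalizedAt ℓ) {jNFull N}) x ∧
      ∃ hx : (x : LaurentSeries ℚ) ∈ intSubring ℓ, redSeries ℓ ⟨x, hx⟩ = y := by
  induction hy using Submonoid.closure_induction with
  | mem y hy =>
    obtain ⟨d, hne, hd, rfl⟩ := hy
    exact ⟨jDFull N d hd, isIntegral_jDFull N ℓ hmod d hd, qExpand_jq_mem_intSubring d,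
      redSeries_jqd ℓ d⟩
  | one =>
    refine ⟨1, isIntegral_one, Subring.one_mem _, ?_⟩
    have h1 : (⟨((1 : ↥(modularFunctionFieldFull N)) : LaurentSeries ℚ), Subring.one_mem _⟩ :
        intSubring ℓ) = 1 := Subtype.ext rfl
    rw [h1, map_one]
  | mul y₁ y₂ _ _ h₁ h₂ =>
    obtain ⟨x₁, hi₁, hx₁, rfl⟩ := h₁
    obtain ⟨x₂, hi₂, hx₂, rfl⟩ := h₂
    refine ⟨x₁ * x₂, hi₁.mul hi₂, Subring.mul_mem _ hx₁ hx₂, ?_⟩
    have h1 : (⟨((x₁ * x₂ : ↥(modularFunctionFieldFull N)) : LaurentSeries ℚ),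
        Subring.mul_mem _ hx₁ hx₂⟩ : intSubring ℓ) = ⟨x₁, hx₁⟩ * ⟨x₂, hx₂⟩ := Subtype.ext rfl
    rw [h1, map_mul]

/-- Constants, as `ℓ`-integral series. -/
def constHom : ↥(GaloisRep.ratLocalizedAt ℓ) →+* intSubring ℓ :=
  (seriesEquiv ℓ).toRingHom.comp (HahnSeries.C : ↥(GaloisRep.ratLocalizedAt ℓ) →+* _)

omit [Fact ℓ.Prime] in
theorem coe_constHom (r : ↥(GaloisRep.ratLocalizedAt ℓ)) :
    ((constHom ℓ r : intSubring ℓ) : LaurentSeries ℚ) = HahnSeries.single 0 (r : ℚ) := by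
  show coeffMap (GaloisRep.ratLocalizedAt ℓ).subtype (HahnSeries.C r) = _
  rw [HahnSeries.C_apply, coeffMap_single]
  rfl

theorem redSeries_constHom (r : ↥(GaloisRep.ratLocalizedAt ℓ)) :
    redSeries ℓ (constHom ℓ r) = HahnSeries.C (res ℓ r) := by
  show coeffMap (res ℓ) ((seriesEquiv ℓ).symm (seriesEquiv ℓ (HahnSeries.C r))) = _
  rw [RingEquiv.symm_apply_apply, HahnSeries.C_apply, coeffMap_single, HahnSeries.C_apply]

/-- Evaluation of a polynomial over `ℤ_(ℓ)` at `j(q^N)`, as an `ℓ`-integral series. -/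
def evI : Polynomial ↥(GaloisRep.ratLocalizedAt ℓ) →+* intSubring ℓ :=
  Polynomial.eval₂RingHom (constHom ℓ) ⟨qExpand ℚ N jq, qExpand_jq_mem_intSubring N⟩

omit [Fact ℓ.Prime] in
theorem coe_evI (f : Polynomial ↥(GaloisRep.ratLocalizedAt ℓ)) :
    ((evI N ℓ f : intSubring ℓ) : LaurentSeries ℚ)
      = ((Polynomial.aeval (jNFull N) f : ↥(modularFunctionFieldFull N)) : LaurentSeries ℚ) := by
  have h : (intSubring ℓ).subtype.comp (evI N ℓ)
      = (fullVal N).comp (Polynomial.aeval (jNFull N)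
          : Polynomial ↥(GaloisRep.ratLocalizedAt ℓ) →ₐ[↥(GaloisRep.ratLocalizedAt ℓ)]
            ↥(modularFunctionFieldFull N)).toRingHom := by
    apply Polynomial.ringHom_ext
    · intro r
      show ((evI N ℓ (Polynomial.C r) : intSubring ℓ) : LaurentSeries ℚ)
        = ((Polynomial.aeval (jNFull N) (Polynomial.C r) : ↥(modularFunctionFieldFull N))
            : LaurentSeries ℚ)
      rw [Polynomial.aeval_C, coe_algebraMap_ratLocalizedAt]
      show ((Polynomial.eval₂ (constHom ℓ) _ (Polynomial.C r) : intSubring ℓ) : LaurentSeries ℚ) = _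
      rw [Polynomial.eval₂_C, coe_constHom]
    · show ((evI N ℓ Polynomial.X : intSubring ℓ) : LaurentSeries ℚ)
        = ((Polynomial.aeval (jNFull N) Polynomial.X : ↥(modularFunctionFieldFull N))
            : LaurentSeries ℚ)
      rw [Polynomial.aeval_X]
      show ((Polynomial.eval₂ (constHom ℓ) _ Polynomial.X : intSubring ℓ) : LaurentSeries ℚ) = _
      rw [Polynomial.eval₂_X]
      rfl
  exact congrFun (congrArg DFunLike.coe h) f

theorem redSeries_evI (f : Polynomial ↥(GaloisRep.ratLocalizedAt ℓ)) :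
    redSeries ℓ (evI N ℓ f)
      = Polynomial.aeval (jqNModC (ZMod ℓ) N) (f.map (res ℓ)) := by
  have h : (redSeries ℓ).comp (evI N ℓ)
      = (Polynomial.aeval (jqNModC (ZMod ℓ) N)
          : Polynomial (ZMod ℓ) →ₐ[ZMod ℓ] LaurentSeries (ZMod ℓ)).toRingHom.comp
          (Polynomial.mapRingHom (res ℓ)) := by
    apply Polynomial.ringHom_ext
    · intro r
      show redSeries ℓ (Polynomial.eval₂ (constHom ℓ) _ (Polynomial.C r))
        = Polynomial.aeval (jqNModC (ZMod ℓ) N) ((Polynomial.C r).map (res ℓ))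
      rw [Polynomial.eval₂_C, redSeries_constHom, Polynomial.map_C, Polynomial.aeval_C,
        algebraMap_laurentSeries_eq_single, HahnSeries.C_apply]
    · show redSeries ℓ (Polynomial.eval₂ (constHom ℓ) _ Polynomial.X)
        = Polynomial.aeval (jqNModC (ZMod ℓ) N) ((Polynomial.X).map (res ℓ))
      rw [Polynomial.eval₂_X, Polynomial.map_X, Polynomial.aeval_X, redSeries_jqd]
      rfl
  exact congrFun (congrArg DFunLike.coe h) f

/-- A polynomial over `ℤ_(ℓ)` that vanishes modulo `ℓ` is divisible by `ℓ`. -/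
theorem C_dvd_of_map_res_eq_zero (f : Polynomial ↥(GaloisRep.ratLocalizedAt ℓ))
    (hf : f.map (res ℓ) = 0) :
    Polynomial.C (ℓ : ↥(GaloisRep.ratLocalizedAt ℓ)) ∣ f := by
  rw [Polynomial.C_dvd_iff_dvd_coeff]
  intro i
  have h1 : res ℓ (f.coeff i) = 0 := by
    have h2 := congrArg (fun p => p.coeff i) hf
    simpa [Polynomial.coeff_map] using h2
  obtain ⟨c, hc, h2⟩ := (res_eq_zero_iff ℓ _).mp h1
  exact ⟨⟨c, hc⟩, Subtype.ext (by rw [h2]; rfl)⟩

/-- `j(q^N)` in characteristic `ℓ` is transcendental over `𝔽_ℓ`. -/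
theorem transcendental_jqNModC : Transcendental (ZMod ℓ) (jqNModC (ZMod ℓ) N) := by
  have h : jqNModC (ZMod ℓ) N = H55.lead ((N : ℤ) * (-1))
      (PowerSeries.expand N (NeZero.ne N) (jNum.map (Int.castRingHom (ZMod ℓ)))) := by
    rw [← H55.qExpand_lead]
    rfl
  rw [h]
  refine H55.transcendental_lead ?_ _ ?_
  · have : (0 : ℤ) < N := by exact_mod_cast Nat.pos_of_ne_zero (NeZero.ne N)
    linarith
  · rw [PowerSeries.constantCoeff_expand, ← PowerSeries.coeff_zero_eq_constantCoeff,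
      PowerSeries.coeff_map, PowerSeries.coeff_zero_eq_constantCoeff, constantCoeff_jNum]
    simp

/-- **(C4)** (helper66's shape): `n ≤ [𝔽_ℓ(j̄(q^d) : d ∣ N) : 𝔽_ℓ(j̄(q^N))]` gives `n` elements of `F_N`,
integral over `ℤ_(ℓ)[j(q^N)]`, that are linearly independent modulo `ℓ` over `ℤ_(ℓ)[j(q^N)]`. -/
theorem exists_indep_of_le_relfinrank (hmod : HasModPolys) {n : ℕ}
    (h : n ≤ IntermediateField.relfinrank
        (IntermediateField.adjoin (ZMod ℓ) {jqNModC (ZMod ℓ) N})
        (modularFunctionFieldFullC (ZMod ℓ) N)) :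
    ∃ m : Fin n → ↥(modularFunctionFieldFull N),
      (∀ i, IsIntegral ↥(Algebra.adjoin ↥(GaloisRep.ratLocalizedAt ℓ) {jNFull N}) (m i)) ∧
      ∀ a : Fin n → ↥(Algebra.adjoin ↥(GaloisRep.ratLocalizedAt ℓ) {jNFull N}),
        (∀ k : ℤ, ∃ c ∈ GaloisRep.ratLocalizedAt ℓ,
          ((∑ i, a i • m i : ↥(modularFunctionFieldFull N)) : LaurentSeries ℚ).coeff k
            = (ℓ : ℚ) * c) →
        ∀ i, (ℓ : ↥(Algebra.adjoin ↥(GaloisRep.ratLocalizedAt ℓ) {jNFull N})) ∣ a i := by
  have hEle : IntermediateField.adjoin (ZMod ℓ) {jqNModC (ZMod ℓ) N}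
      ≤ IntermediateField.adjoin (ZMod ℓ) (divisorExpansionsC (ZMod ℓ) N) := by
    apply IntermediateField.adjoin.mono
    rintro x rfl
    exact mem_divisorExpansionsC (ZMod ℓ) N dvd_rfl
  obtain ⟨v, hv, hlin⟩ := exists_linearIndependent_monomials
    (IntermediateField.adjoin (ZMod ℓ) {jqNModC (ZMod ℓ) N}) _ hEle h
  choose m hm_int hm_mem hm_red using fun i => exists_lift_of_mem_closure N ℓ hmod (hv i)
  refine ⟨m, hm_int, fun a ha i => ?_⟩
  have hf : ∀ i, ∃ f : Polynomial ↥(GaloisRep.ratLocalizedAt ℓ),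
      ((a i : ↥(Algebra.adjoin ↥(GaloisRep.ratLocalizedAt ℓ) {jNFull N})) :
        ↥(modularFunctionFieldFull N)) = Polynomial.aeval (jNFull N) f := by
    intro i
    have h1 : ((a i : ↥(Algebra.adjoin ↥(GaloisRep.ratLocalizedAt ℓ) {jNFull N})) :
        ↥(modularFunctionFieldFull N)) ∈ (Polynomial.aeval (jNFull N) :
          Polynomial ↥(GaloisRep.ratLocalizedAt ℓ) →ₐ[↥(GaloisRep.ratLocalizedAt ℓ)]
            ↥(modularFunctionFieldFull N)).range := by
      rw [← Algebra.adjoin_singleton_eq_range_aeval]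
      exact (a i).2
    obtain ⟨f, hf⟩ := h1
    exact ⟨f, hf.symm⟩
  choose f hf using hf
  -- the combination as an `ℓ`-integral series
  have hXcoe : ((∑ j, evI N ℓ (f j) * ⟨(m j : LaurentSeries ℚ), hm_mem j⟩ : intSubring ℓ) :
      LaurentSeries ℚ) = ((∑ j, a j • m j : ↥(modularFunctionFieldFull N)) : LaurentSeries ℚ) := by
    have h1 : ((∑ j, a j • m j : ↥(modularFunctionFieldFull N)) : LaurentSeries ℚ)
        = ∑ j, (((a j : ↥(Algebra.adjoin ↥(GaloisRep.ratLocalizedAt ℓ) {jNFull N})) :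
            ↥(modularFunctionFieldFull N)) : LaurentSeries ℚ) * (m j : LaurentSeries ℚ) := by
      have h2 := map_sum (fullVal N) (fun j => a j • m j) Finset.univ
      exact h2
    rw [h1]
    have h3 := map_sum (intSubring ℓ).subtype
      (fun j => evI N ℓ (f j) * ⟨(m j : LaurentSeries ℚ), hm_mem j⟩) Finset.univ
    refine h3.trans (Finset.sum_congr rfl fun j _ => ?_)
    show ((evI N ℓ (f j) : intSubring ℓ) : LaurentSeries ℚ) * (m j : LaurentSeries ℚ) = _
    rw [coe_evI, hf j]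
  have hX0 : redSeries ℓ (∑ j, evI N ℓ (f j) * ⟨(m j : LaurentSeries ℚ), hm_mem j⟩) = 0 :=
    (redSeries_eq_zero_iff ℓ _).mpr (by rw [hXcoe]; exact ha)
  rw [map_sum] at hX0
  simp only [map_mul, redSeries_evI, hm_red] at hX0
  -- coefficients in `E`
  let tE : ↥(IntermediateField.adjoin (ZMod ℓ) {jqNModC (ZMod ℓ) N}) :=
    ⟨jqNModC (ZMod ℓ) N, IntermediateField.subset_adjoin _ _ rfl⟩
  have hc : ∀ j, Polynomial.aeval (jqNModC (ZMod ℓ) N) ((f j).map (res ℓ))
      = ((Polynomial.aeval tE ((f j).map (res ℓ)) :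
          ↥(IntermediateField.adjoin (ZMod ℓ) {jqNModC (ZMod ℓ) N})) :
            LaurentSeries (ZMod ℓ)) := by
    intro j
    exact Polynomial.aeval_algHom_apply
      (IntermediateField.val (IntermediateField.adjoin (ZMod ℓ) {jqNModC (ZMod ℓ) N})) tE
      ((f j).map (res ℓ))
  have hsum : ∑ j, (Polynomial.aeval tE ((f j).map (res ℓ)) :
      ↥(IntermediateField.adjoin (ZMod ℓ) {jqNModC (ZMod ℓ) N})) • v j = 0 := by
    rw [← hX0]
    refine Finset.sum_congr rfl fun j _ => ?_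
    rw [hc j]
    rfl
  have hzero := Fintype.linearIndependent_iff.mp hlin _ hsum i
  have hfi : (f i).map (res ℓ) = 0 := by
    have h1 : Polynomial.aeval (jqNModC (ZMod ℓ) N) ((f i).map (res ℓ)) = 0 := by
      rw [hc i, hzero]; rfl
    exact (transcendental_iff.mp (transcendental_jqNModC N ℓ)) _ h1
  obtain ⟨g, hg⟩ := C_dvd_of_map_res_eq_zero ℓ (f i) hfi
  refine ⟨⟨Polynomial.aeval (jNFull N) g, ?_⟩, ?_⟩
  · rw [Algebra.adjoin_singleton_eq_range_aeval]
    exact ⟨g, rfl⟩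
  · apply Subtype.ext
    rw [hf i, hg, map_mul, Polynomial.aeval_C, map_natCast]
    rfl

end Lift

end Fermat.Agent.S28.H85
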